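/-
GATE-L / L10 AUX-LEVEL as a PRODUCT (helper2), asked by helper48 STACK RULING 2 (board 2764 (6)).

The auxiliary level of the S36 geometry is `r = r₁ r₂`:

* `r₂` a prime `≡ 11 mod 12`, `r₂ ∤ N r₁` (kills the elliptic points at every level divisible by `r₂`);
* `r₁ = smallAux N q ∈ {1, 2, 3}`: `3` if `q = 2` and `3 ∤ N`, `2` if `q = 3` and `2 ∤ N`, else `1`
  (the J1 / K stacks need `3 ∣ N''` at `ℓ = 2` and `2 ∣ N''` at `ℓ = 3`).

`exists_aux_level` packages everything; each of `r₁`, `r₂` is `1` or a prime not dividing the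
previous level, so the descent `level N r₁ r₂ → level N r₁ → level N` is two steps of the
prime-aux descent (helper17 `GL/Descent`, helper62 `GL/AuxLevel`, helper24 `GeomInv.descent`).
-/
import Mathlib
import Fermat.Agent.GL.AuxPrime

set_option autoImplicit false

namespace Fermat.Agent.GL.AuxProduct

open ModularCurve Fermat.Agent.GL.AuxPrime

/-- the small auxiliary factor: `3` if `q = 2` and `3 ∤ N`; `2` if `q = 3` and `2 ∤ N`; else `1` -/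
def smallAux (N q : ℕ) : ℕ :=
  if q = 2 ∧ ¬ 3 ∣ N then 3 else if q = 3 ∧ ¬ 2 ∣ N then 2 else 1

theorem smallAux_pos (N q : ℕ) : 0 < smallAux N q := by
  unfold smallAux; split_ifs <;> norm_num

theorem smallAux_ne_zero (N q : ℕ) : smallAux N q ≠ 0 := (smallAux_pos N q).ne'

/-- `smallAux N q` is `1` or a prime not dividing `N`, different from `q` -/
theorem smallAux_eq_one_or_prime (N q : ℕ) :
    smallAux N q = 1 ∨ ((smallAux N q).Prime ∧ ¬ smallAux N q ∣ N) := by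
  unfold smallAux
  split_ifs with h1 h2
  · exact Or.inr ⟨Nat.prime_three, h1.2⟩
  · exact Or.inr ⟨Nat.prime_two, h2.2⟩
  · exact Or.inl rfl

theorem smallAux_ne (N : ℕ) {q : ℕ} (hq : q.Prime) : smallAux N q ≠ q := by
  unfold smallAux
  split_ifs with h1 h2
  · rw [h1.1]; norm_num
  · rw [h2.1]; norm_num
  · exact hq.one_lt.ne

theorem smallAux_of_five_le (N : ℕ) {q : ℕ} (hq : 5 ≤ q) : smallAux N q = 1 := by
  unfold smallAux
  rw [if_neg (fun h => by omega), if_neg (fun h => by omega)]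

theorem smallAux_of_ne (N : ℕ) {q : ℕ} (h2 : q ≠ 2) (h3 : q ≠ 3) : smallAux N q = 1 := by
  unfold smallAux
  rw [if_neg (fun h => h2 h.1), if_neg (fun h => h3 h.1)]

theorem coprime_smallAux (N q : ℕ) : Nat.Coprime (smallAux N q) N := by
  rcases smallAux_eq_one_or_prime N q with h | ⟨hp, hnd⟩
  · rw [h]; exact Nat.coprime_one_left N
  · exact (Nat.Prime.coprime_iff_not_dvd hp).mpr hnd

/-- `q = 2`: the level `N · smallAux N 2` is divisible by `3` -/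
theorem three_dvd_mul_smallAux (N : ℕ) : 3 ∣ N * smallAux N 2 := by
  unfold smallAux
  by_cases h : 3 ∣ N
  · rw [if_neg (fun h' => h'.2 h), if_neg (fun h' => by omega)]
    simpa using h
  · rw [if_pos ⟨rfl, h⟩]
    exact Dvd.intro_left N rfl

/-- `q = 3`: the level `N · smallAux N 3` is divisible by `2` -/
theorem two_dvd_mul_smallAux (N : ℕ) : 2 ∣ N * smallAux N 3 := by
  unfold smallAux
  by_cases h : 2 ∣ N
  · rw [if_neg (fun h' => by omega), if_neg (fun h' => h'.2 h)]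
    simpa using h
  · rw [if_neg (fun h' => by omega), if_pos ⟨rfl, h⟩]
    exact Dvd.intro_left N rfl

/-- the small factor is prime to `q` -/
theorem coprime_smallAux_self (N : ℕ) {q : ℕ} (hq : q.Prime) : Nat.Coprime (smallAux N q) q := by
  rcases smallAux_eq_one_or_prime N q with h | ⟨hp, _⟩
  · rw [h]; exact Nat.coprime_one_left q
  · exact (Nat.coprime_primes hp hq).mpr (smallAux_ne N hq)

/-- **AUX-LEVEL as a product** `r = r₁ r₂`: `r₁ = smallAux N q ∈ {1,2,3}` forces `3 ∣ N r₁` for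
`q = 2` and `2 ∣ N r₁` for `q = 3`; `r₂ ≡ 11 mod 12` is a prime not dividing `N r₁` and kills the
elliptic points at every level it divides. -/
theorem exists_aux_level {N q : ℕ} (hN : N ≠ 0) (hq : q.Prime) (hqN : q ∣ N) :
    ∃ r₁ r₂ : ℕ, r₁ = smallAux N q ∧ (r₁ = 1 ∨ (r₁.Prime ∧ ¬ r₁ ∣ N)) ∧
      r₂.Prime ∧ ¬ r₂ ∣ N * r₁ ∧ r₂ % 12 = 11 ∧ r₁ ≠ q ∧ r₂ ≠ q ∧ r₁ ≠ r₂ ∧
      Nat.Coprime (r₁ * r₂) N ∧ Nat.Coprime (r₁ * r₂) q ∧ Nat.Coprime r₁ r₂ ∧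
      (q = 2 → 3 ∣ N * r₁) ∧ (q = 3 → 2 ∣ N * r₁) ∧ (q ≠ 2 → q ≠ 3 → r₁ = 1) ∧
      ∀ N' : ℕ, r₂ ∣ N' → nuTwo N' = 0 ∧ nuThree N' = 0 := by
  obtain ⟨r₂, hr₂, hnd, hmod, hnu⟩ :=
    exists_aux_prime (n := N * smallAux N q) (mul_ne_zero hN (smallAux_ne_zero N q))
  have hr₂N : ¬ r₂ ∣ N := fun h => hnd (h.mul_right _)
  have hr₂r₁ : ¬ r₂ ∣ smallAux N q := fun h => hnd (h.mul_left _)
  have hr₂q : r₂ ≠ q := fun h => hr₂N (h ▸ hqN)
  have hcop12 : Nat.Coprime (smallAux N q) r₂ :=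
    ((Nat.Prime.coprime_iff_not_dvd hr₂).mpr hr₂r₁).symm
  refine ⟨smallAux N q, r₂, rfl, smallAux_eq_one_or_prime N q, hr₂, hnd, hmod, smallAux_ne N hq,
    hr₂q, ?_, ?_, ?_, hcop12, ?_, ?_, ?_, hnu⟩
  · intro h
    exact hr₂r₁ (h ▸ dvd_rfl)
  · exact Nat.Coprime.mul_left (coprime_smallAux N q) ((Nat.Prime.coprime_iff_not_dvd hr₂).mpr hr₂N)
  · exact Nat.Coprime.mul_left (coprime_smallAux_self N hq) ((Nat.coprime_primes hr₂ hq).mpr hr₂q)
  · rintro rfl; exact three_dvd_mul_smallAux N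
  · rintro rfl; exact two_dvd_mul_smallAux N
  · exact fun h2 h3 => smallAux_of_ne N h2 h3

/-- variant of `exists_aux_level` where `r₂` moreover avoids a further number `n'` (e.g. `n' = lam`) -/
theorem exists_aux_level_avoiding {N q : ℕ} (hN : N ≠ 0) (hq : q.Prime) (hqN : q ∣ N) {n' : ℕ}
    (hn' : n' ≠ 0) :
    ∃ r₁ r₂ : ℕ, r₁ = smallAux N q ∧ (r₁ = 1 ∨ (r₁.Prime ∧ ¬ r₁ ∣ N)) ∧
      r₂.Prime ∧ ¬ r₂ ∣ N * r₁ ∧ ¬ r₂ ∣ n' ∧ r₂ % 12 = 11 ∧ r₁ ≠ q ∧ r₂ ≠ q ∧ r₁ ≠ r₂ ∧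
      Nat.Coprime (r₁ * r₂) N ∧ Nat.Coprime (r₁ * r₂) q ∧ Nat.Coprime r₁ r₂ ∧
      (q = 2 → 3 ∣ N * r₁) ∧ (q = 3 → 2 ∣ N * r₁) ∧ (q ≠ 2 → q ≠ 3 → r₁ = 1) ∧
      ∀ N' : ℕ, r₂ ∣ N' → nuTwo N' = 0 ∧ nuThree N' = 0 := by
  obtain ⟨r₂, hr₂, hnd, hmod, hnu⟩ :=
    exists_aux_prime (n := N * smallAux N q * n')
      (mul_ne_zero (mul_ne_zero hN (smallAux_ne_zero N q)) hn')
  have hnd' : ¬ r₂ ∣ N * smallAux N q := fun h => hnd (h.mul_right _)
  have hr₂N : ¬ r₂ ∣ N := fun h => hnd' (h.mul_right _)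
  have hr₂r₁ : ¬ r₂ ∣ smallAux N q := fun h => hnd' (h.mul_left _)
  have hr₂q : r₂ ≠ q := fun h => hr₂N (h ▸ hqN)
  have hcop12 : Nat.Coprime (smallAux N q) r₂ :=
    ((Nat.Prime.coprime_iff_not_dvd hr₂).mpr hr₂r₁).symm
  refine ⟨smallAux N q, r₂, rfl, smallAux_eq_one_or_prime N q, hr₂, hnd', fun h => hnd (h.mul_left _),
    hmod, smallAux_ne N hq, hr₂q, ?_, ?_, ?_, hcop12, ?_, ?_, ?_, hnu⟩
  · intro h
    exact hr₂r₁ (h ▸ dvd_rfl)
  · exact Nat.Coprime.mul_left (coprime_smallAux N q) ((Nat.Prime.coprime_iff_not_dvd hr₂).mpr hr₂N)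
  · exact Nat.Coprime.mul_left (coprime_smallAux_self N hq) ((Nat.coprime_primes hr₂ hq).mpr hr₂q)
  · rintro rfl; exact three_dvd_mul_smallAux N
  · rintro rfl; exact two_dvd_mul_smallAux N
  · exact fun h2 h3 => smallAux_of_ne N h2 h3

end Fermat.Agent.GL.AuxProduct
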