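/-
GATE-L / L10-NBC-ANALYTIC (helper12): the CONCRETE norm base change for the two degeneracy
embeddings `alphaB`, `betaB : F_N → F_{Nq}` along a level raise `N ∣ L` prime to `q`.

For a prime `q ∣ N`, `N ∣ L` with `gcd (L / N, q) = 1` and every `x : F_{Nq}`:

* `normAlong_alphaB_levelIncl` :
    `Nm_{F_{Lq}/α F_L} (x) = Nm_{F_{Nq}/α F_N} (x)`   (inside `F_L`);
* `normAlong_betaB_levelIncl` :
    `Nm_{F_{Lq}/β F_L} (x) = Nm_{F_{Nq}/β F_N} (x)`   (inside `F_L`).

NO condition `q ∤ [F_L : F_N]` (so `L = N r` with `q ∣ r + 1` is allowed): both norms are computed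
on the upper half plane as the SAME product over explicit embeddings into `Mer`
(`sigU N q b` for `β`, `Sig (Nq) γ_k` with `γ_k = [[1,0],[L k,1]]` for `α`), using helper82's
`realize`/`Sig`, helper66's coset separation, helper86's `sigU` and helper43's
`norm_eq_prod_of_embeddings`.
-/
import Mathlib
import Fermat.Agent.GK.UQ.NormMer
import Fermat.Agent.GJ.S37.HeckePullback

set_option autoImplicit false
set_option linter.style.haveILetI false

noncomputable section

namespace Fermat.Agent.GL.AuxLevel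

open UpperHalfPlane ModularCurve AlgebraicCurve Fermat.Agent.S24 Fermat.Agent.S24_helper82
open Fermat.Agent.GJ.MerGL Fermat.Agent.GJ.HN Fermat.Agent.GJ.HInputs
open Fermat.Agent.GJ.S37HeckePullback (levelIncl coe_levelIncl)
open Fermat.Agent.GK.UQ Fermat.Agent.S16_helper49
open CongruenceSubgroup Matrix Matrix.SpecialLinearGroup
open scoped MatrixGroups

/-! ### the realisation is compatible with the level inclusions -/

section Realize

variable {N L : ℕ} [NeZero N] [NeZero L] (h : N ∣ L)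

theorem levelIncl_jdF {d : ℕ} [NeZero d] (hd : d ∣ N) :
    levelIncl h (jdF N d hd) = jdF L d (hd.trans h) :=
  Subtype.ext rfl

/-- `realize L` restricted to `F_N` is `realize N` -/
theorem realize_levelIncl (x : FN N) : realize L (levelIncl h x) = realize N x := by
  have key : (realize L).comp (levelIncl h) = realize N := by
    apply algHom_ext_FN
    intro d _ hd
    show realize L (levelIncl h (jdF N d hd)) = realize N (jdF N d hd)
    rw [levelIncl_jdF, realize_jdF, realize_jdF]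
  exact DFunLike.congr_fun key x

end Realize

/-! ### the norm along `betaB`, `q ∣ N`, of an arbitrary element -/

section Beta

variable {N L q : ℕ} [NeZero N] [NeZero L] [Fact q.Prime]

/-- **the norm along `β` of an arbitrary element of `F_{Nq}`**, `q ∣ N`, on the upper half plane:
`∏_{b mod q} (realize v)((τ + b)/q)`. -/
theorem realize_normAlong_betaB (hqN : q ∣ N) (v : FN (N * q)) :
    realize N (normAlong (betaB N q) v) = ∏ b : ZMod q, sigU N q b v := by
  have hq : q.Prime := Fact.out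
  rw [normAlong_def]
  letI : Algebra (FN N) (FN (N * q)) := algebraAlong (betaB N q)
  letI : Algebra (FN N) Mer := (realize N).toRingHom.toAlgebra
  haveI : FiniteDimensional (FN N) (FN (N * q)) := finiteDimensional_betaB hq hqN
  haveI : Algebra.IsSeparable (FN N) (FN (N * q)) := inferInstance
  let s : ZMod q → (FN (N * q) →ₐ[FN N] Mer) := fun b =>
    { toRingHom := (sigU N q b).toRingHom
      commutes' := fun f => sigU_betaB b f }
  have hs : ∀ b (f : FN (N * q)), s b f = sigU N q b f := fun b f => rfl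
  have hinj : Function.Injective s := by
    intro b b' hbb'
    have h1 := DFunLike.congr_fun hbb' (alphaB N q (jF N))
    rw [hs, hs, sigU_alphaB, sigU_alphaB, realize_jF] at h1
    exact OnePoint.coe_injective (heckeP_injective_on_j h1)
  have hcard : Fintype.card (ZMod q) = Module.finrank (FN N) (FN (N * q)) := by
    rw [finrank_betaB_of_dvd hq hqN, ZMod.card]
  exact norm_eq_prod_of_embeddings s hinj hcard v

theorem sigU_levelIncl (h : N ∣ L) (b : ZMod q) (x : FN (N * q)) :
    sigU L q b (levelIncl (Nat.mul_dvd_mul_right h q) x) = sigU N q b x := by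
  rw [sigU_apply, sigU_apply, realize_levelIncl]

/-- **norm base change along `β`**: for a prime `q ∣ N` and ANY `N ∣ L`,
`Nm_{F_{Lq}/β F_L} x = Nm_{F_{Nq}/β F_N} x` for `x ∈ F_{Nq}`. -/
theorem normAlong_betaB_levelIncl (h : N ∣ L) (hqN : q ∣ N) (x : FN (N * q)) :
    normAlong (betaB L q) (levelIncl (Nat.mul_dvd_mul_right h q) x) =
      levelIncl h (normAlong (betaB N q) x) := by
  apply realize_injective L
  rw [realize_normAlong_betaB (hqN.trans h), realize_levelIncl, realize_normAlong_betaB hqN]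
  exact Finset.prod_congr rfl fun b _ => sigU_levelIncl h b x

end Beta

/-! ### lower unipotent matrices -/

section LowerUni

/-- the matrix `[[1, 0], [c, 1]]` -/
def lowerUni (c : ℤ) : SL(2, ℤ) :=
  ⟨!![1, 0; c, 1], by rw [Matrix.det_fin_two_of]; ring⟩

@[simp] theorem lowerUni_apply_10 (c : ℤ) : (lowerUni c) 1 0 = c := rfl

theorem lowerUni_mem_Gamma0 {N : ℕ} {c : ℤ} (hc : (N : ℤ) ∣ c) : lowerUni c ∈ Gamma0 N :=
  mem_Gamma0_of_dvd (by rw [lowerUni_apply_10]; exact hc)

theorem lowerUni_mul (a b : ℤ) : lowerUni a * lowerUni b = lowerUni (a + b) := by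
  apply Subtype.ext
  show !![(1 : ℤ), 0; a, 1] * !![(1 : ℤ), 0; b, 1] = !![(1 : ℤ), 0; a + b, 1]
  rw [Matrix.mul_fin_two]
  ext i j
  fin_cases i <;> fin_cases j <;> simp

theorem lowerUni_inv (a : ℤ) : (lowerUni a)⁻¹ = lowerUni (-a) := by
  rw [inv_eq_iff_mul_eq_one, lowerUni_mul, add_neg_cancel]
  apply Subtype.ext
  show !![(1 : ℤ), 0; 0, 1] = 1
  ext i j
  fin_cases i <;> fin_cases j <;> simp

theorem lowerUni_mul_inv (a b : ℤ) : lowerUni a * (lowerUni b)⁻¹ = lowerUni (a - b) := by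
  rw [lowerUni_inv, lowerUni_mul, sub_eq_add_neg]

theorem dvd_of_lowerUni_mem_Gamma0 {N : ℕ} {c : ℤ} (h : lowerUni c ∈ Gamma0 N) : (N : ℤ) ∣ c := by
  have := dvd_of_mem_Gamma0 (⟨_, h⟩ : Gamma0 N)
  simpa using this

end LowerUni

/-! ### the norm along `alphaB`, `q ∣ N`, of an arbitrary element -/

section Alpha

variable {N L q : ℕ} [NeZero N] [NeZero L] [Fact q.Prime]

/-- **the norm along `α` of an arbitrary element of `F_{Nq}`**, `q ∣ N`, on the upper half plane:
the product over any family `c k ∈ Γ₀(N)`, `k mod q`, of pairwise distinct cosets of `Γ₀(Nq)`. -/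
theorem realize_normAlong_alphaB (hqN : q ∣ N) (c : ZMod q → SL(2, ℤ))
    (hc : ∀ k, c k ∈ Gamma0 N)
    (hinj : ∀ k l, c k * (c l)⁻¹ ∈ Gamma0 (N * q) → k = l) (v : FN (N * q)) :
    realize N (normAlong (alphaB N q) v) = ∏ k : ZMod q, compM (c k) (realize (N * q) v) := by
  have hq : q.Prime := Fact.out
  rw [normAlong_def]
  letI : Algebra (FN N) (FN (N * q)) := algebraAlong (alphaB N q)
  letI : Algebra (FN N) Mer := (realize N).toRingHom.toAlgebra
  haveI : FiniteDimensional (FN N) (FN (N * q)) := by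
    apply FiniteDimensional.of_finrank_pos
    rw [finrank_alphaB_of_dvd hq hqN]
    exact hq.pos
  haveI : Algebra.IsSeparable (FN N) (FN (N * q)) := inferInstance
  let s : ZMod q → (FN (N * q) →ₐ[FN N] Mer) := fun k =>
    { toRingHom := (Sig (N * q) (c k)⁻¹).toRingHom
      commutes' := fun f => Sig_inv_alphaB (hc k) f }
  have hs : ∀ k (f : FN (N * q)), s k f = Sig (N * q) (c k)⁻¹ f := fun k f => rfl
  have hinj' : Function.Injective s := by
    intro k l hkl
    have h1 := DFunLike.congr_fun hkl (jdF (N * q) (N * q) dvd_rfl)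
    rw [hs, hs] at h1
    have h2 := coset_eq_of_Sig_eq (N * q) h1
    have h3 : (c k)⁻¹⁻¹ * (c l)⁻¹ ∈ Gamma0 (N * q) := QuotientGroup.eq.mp h2
    rw [inv_inv] at h3
    exact hinj k l h3
  have hcard : Fintype.card (ZMod q) = Module.finrank (FN N) (FN (N * q)) := by
    rw [finrank_alphaB_of_dvd hq hqN, ZMod.card]
  have key := norm_eq_prod_of_embeddings s hinj' hcard v
  refine key.trans (Finset.prod_congr rfl fun k _ => ?_)
  rw [hs, Sig_apply, inv_inv]

/-- the family `γ_k = [[1,0],[L k,1]]`, `k mod q` -/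
def cosetFam (L q : ℕ) (k : ZMod q) : SL(2, ℤ) := lowerUni ((L : ℤ) * (k.val : ℤ))

omit [NeZero N] [NeZero L] [Fact q.Prime] in
theorem cosetFam_mem (h : N ∣ L) (k : ZMod q) : cosetFam L q k ∈ Gamma0 N :=
  lowerUni_mem_Gamma0 (Dvd.dvd.mul_right (Int.natCast_dvd_natCast.mpr h) _)

omit [NeZero L] in
/-- the cosets `γ_k Γ₀(Nq)` are pairwise distinct when `L / N` is prime to `q` -/
theorem cosetFam_inj (h : N ∣ L) (hcop : Nat.Coprime (L / N) q) (k l : ZMod q)
    (hkl : cosetFam L q k * (cosetFam L q l)⁻¹ ∈ Gamma0 (N * q)) : k = l := by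
  have hq : q.Prime := Fact.out
  rw [cosetFam, cosetFam, lowerUni_mul_inv] at hkl
  have h1 := dvd_of_lowerUni_mem_Gamma0 hkl
  obtain ⟨r, hr⟩ := h
  have hN0 : (N : ℤ) ≠ 0 := Nat.cast_ne_zero.mpr (NeZero.ne N)
  have hr' : L / N = r := by
    rw [hr]; exact Nat.mul_div_cancel_left r (Nat.pos_of_ne_zero (NeZero.ne N))
  rw [hr'] at hcop
  have h2 : ((N : ℤ) * (q : ℤ)) ∣ (N : ℤ) * ((r : ℤ) * ((k.val : ℤ) - (l.val : ℤ))) := by
    have e : ((L : ℤ) * (k.val : ℤ) - (L : ℤ) * (l.val : ℤ)) =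
        (N : ℤ) * ((r : ℤ) * ((k.val : ℤ) - (l.val : ℤ))) := by
      rw [hr]; push_cast; ring
    rw [← e]
    exact_mod_cast h1
  have h3 : (q : ℤ) ∣ (r : ℤ) * ((k.val : ℤ) - (l.val : ℤ)) :=
    (mul_dvd_mul_iff_left hN0).mp h2
  have hcop' : IsCoprime (q : ℤ) (r : ℤ) := (Nat.isCoprime_iff_coprime.mpr hcop).symm
  have h4 : (q : ℤ) ∣ (k.val : ℤ) - (l.val : ℤ) := hcop'.dvd_of_dvd_mul_left h3
  have h5 : ((k.val : ℤ) : ZMod q) = ((l.val : ℤ) : ZMod q) := by
    rw [← sub_eq_zero, ← Int.cast_sub, ZMod.intCast_zmod_eq_zero_iff_dvd]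
    exact h4
  haveI : NeZero q := ⟨hq.ne_zero⟩
  simpa using h5

/-- **norm base change along `α`**: for a prime `q ∣ N`, `N ∣ L` with `L / N` prime to `q`,
`Nm_{F_{Lq}/F_L} x = Nm_{F_{Nq}/F_N} x` for `x ∈ F_{Nq}`. -/
theorem normAlong_alphaB_levelIncl (h : N ∣ L) (hqN : q ∣ N) (hcop : Nat.Coprime (L / N) q)
    (x : FN (N * q)) :
    normAlong (alphaB L q) (levelIncl (Nat.mul_dvd_mul_right h q) x) =
      levelIncl h (normAlong (alphaB N q) x) := by
  apply realize_injective L
  have hcopL : Nat.Coprime (L / L) q := by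
    rw [Nat.div_self (Nat.pos_of_ne_zero (NeZero.ne L))]; exact Nat.coprime_one_left q
  have e1 := realize_normAlong_alphaB (hqN.trans h) (cosetFam L q) (cosetFam_mem dvd_rfl)
    (cosetFam_inj dvd_rfl hcopL) (levelIncl (Nat.mul_dvd_mul_right h q) x)
  have e2 := realize_normAlong_alphaB hqN (cosetFam L q) (cosetFam_mem h)
    (cosetFam_inj h hcop) x
  rw [e1, realize_levelIncl h (normAlong (alphaB N q) x), e2]
  exact Finset.prod_congr rfl fun k _ => by rw [realize_levelIncl]

end Alpha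

end Fermat.Agent.GL.AuxLevel
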