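/-
GATE-L / L10-NBC-ANALYTIC (helper12), file 2: the two base-change squares of helper17's
`GeomInvAux.geomInv_of_aux` for EVERY aux factor `r` prime to `q` (no condition `q ∤ r + 1`,
`r` need not be prime), at a level `N' q` with `q ∣ N'` prime:

* `aLow_kumIncl_all`    : `α_*^{N' r} ∘ ι = ι' ∘ α_*^{N'}`   (`r` prime to `q`);
* `betaLow_kumIncl_all` : `β_*^{N' r} ∘ ι = ι' ∘ β_*^{N'}`   (ANY `r ≥ 1`);
* the function-level identities `normAlong_alphaB_inclAlg`, `normAlong_betaB_inclAlg` in helper17's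
  `inclAlg` language, and the general four-level `α`-square `kumNorm_kumIncl_of_coprime_level`.

`ι = kumIncl : Kum_m(F_{N' q}) → Kum_m(F_{N' r q})`, `ι' = kumIncl : Kum_m(F_{N'}) → Kum_m(F_{N' r})`
(helper17), `aLow`, `betaLow` = helper82's `α_*`, `β_*`.
-/
import Mathlib
import Fermat.Agent.GL.AuxLevel.NormBCModular
import Fermat.Agent.GL.Descent.KumIncl
import Fermat.Agent.GK.UTr.KumBeta

set_option autoImplicit false
set_option linter.style.haveILetI false

noncomputable section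

open AlgebraicCurve ModularCurve IntermediateField

namespace Fermat.Agent.GL.AuxLevel

open Fermat.Agent.GJ.KumGroup Fermat.Agent.GJ.Kum.KumType Fermat.Agent.GJ.J1.Desc
open Fermat.Agent.GJ Fermat.Agent.GJ.HInputs Fermat.Agent.GJ.HN
open Fermat.Agent.GK.Tate Fermat.Agent.S24 Fermat.Agent.GK.SS.AuxDescent
open Fermat.Agent.GK.UTr Fermat.Agent.GL.Descent.KumIncl
open Fermat.Agent.GJ.S37HeckePullback (levelIncl coe_levelIncl)

/-! ### dictionary `levelIncl = inclAlg`, `alphaB = inclAlg` -/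

section Dict

variable {N L : ℕ} [NeZero N] [NeZero L]

theorem levelIncl_eq_inclAlg (h : N ∣ L) : levelIncl h = inclAlg h := rfl

theorem alphaB_eq_inclAlg (q : ℕ) [NeZero q] :
    alphaB N q = inclAlg (Dvd.intro q rfl : N ∣ N * q) := rfl

end Dict

/-! ### function level, `inclAlg` language -/

section Functions

variable {N L q : ℕ} [NeZero N] [NeZero L] [NeZero q]

/-- **norm base change along `α`** in `inclAlg` language: `q ∣ N` prime, `N ∣ L`, `L / N` prime to
`q`. -/
theorem normAlong_alphaB_inclAlg (hq : q.Prime) (h : N ∣ L) (hqN : q ∣ N)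
    (hcop : Nat.Coprime (L / N) q) (hNL : N * q ∣ L * q) (x : FK (N * q)) :
    normAlong (alphaB L q) (inclAlg hNL x) = inclAlg h (normAlong (alphaB N q) x) := by
  haveI : Fact q.Prime := ⟨hq⟩
  exact normAlong_alphaB_levelIncl h hqN hcop x

/-- **norm base change along `β`** in `inclAlg` language: `q ∣ N` prime, ANY `N ∣ L`. -/
theorem normAlong_betaB_inclAlg (hq : q.Prime) (h : N ∣ L) (hqN : q ∣ N)
    (hNL : N * q ∣ L * q) (x : FK (N * q)) :
    normAlong (betaB L q) (inclAlg hNL x) = inclAlg h (normAlong (betaB N q) x) := by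
  haveI : Fact q.Prime := ⟨hq⟩
  exact normAlong_betaB_levelIncl h hqN x

end Functions

/-! ### the `α`-square with four variable levels (helper17's `NormSquare` shape) -/

section AlphaSquare

variable {N' M L' L : ℕ} [NeZero N'] [NeZero M] [NeZero L'] [NeZero L]

/-- **norm base change for the `α`-degeneracy**, levels `M = N' q`, `L = L' q`, `q ∣ N'` prime,
`N' ∣ L'` with `L' / N'` prime to `q`. -/
theorem normAlong_inclAlg_square_of_coprime_level {q : ℕ} (hq : q.Prime) (hqN' : q ∣ N')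
    (hM : M = N' * q) (hL : L = L' * q) (hN'L' : N' ∣ L') (hcop : Nat.Coprime (L' / N') q)
    (hN'M : N' ∣ M) (hL'L : L' ∣ L) (hML : M ∣ L) (x : FK M) :
    normAlong (inclAlg hL'L) (inclAlg hML x) = inclAlg hN'L' (normAlong (inclAlg hN'M) x) := by
  subst hM hL
  haveI : NeZero q := ⟨hq.ne_zero⟩
  exact normAlong_alphaB_inclAlg hq hN'L' hqN' hcop hML x

variable (m : ℕ)

/-- **`α_*^{L} ∘ ι = ι' ∘ α_*^{M}`** on Kummer groups in `kumNorm`/`kumIncl` language, `L' / N'`
prime to `q` (no condition on the degree `[F_{L'} : F_{N'}]`). -/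
theorem kumNorm_kumIncl_of_coprime_level {q : ℕ} (hq : q.Prime) (hqN' : q ∣ N')
    (hM : M = N' * q) (hL : L = L' * q) (hN'L' : N' ∣ L') (hcop : Nat.Coprime (L' / N') q)
    (hN'M : N' ∣ M) (hL'L : L' ∣ L) (hML : M ∣ L) (x : Additive (Kum Kb (FK M) m)) :
    kumNorm m hL'L (kumIncl m hML x) = kumIncl m hN'L' (kumNorm m hN'M x) := by
  obtain ⟨u, rfl⟩ := exists_rep x
  rw [kumIncl_mk, kumNorm_mk, kumNorm_mk, kumIncl_mk]
  refine congrArg (fun v => Additive.ofMul (Kum.mk v)) (Subtype.ext (Units.ext ?_))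
  show normAlong (inclAlg hL'L) ((inclUnits hML (u : (FK M)ˣ) : (FK L)ˣ) : FK L) =
    ((inclUnits hN'L' (normInclUnits hN'M (u : (FK M)ˣ)) : (FK L')ˣ) : FK L')
  rw [inclUnits_eq, inclUnits_eq, coe_normInclUnits]
  exact normAlong_inclAlg_square_of_coprime_level hq hqN' hM hL hN'L' hcop hN'M hL'L hML _

end AlphaSquare

/-! ### the two squares of `geomInv_of_aux` -/

section Squares

variable {N' q r : ℕ} [NeZero N'] [NeZero q] [NeZero r] (m : ℕ)

omit [NeZero r] in
theorem mul_div_cancel_aux : N' * r / N' = r :=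
  Nat.mul_div_cancel_left r (Nat.pos_of_ne_zero (NeZero.ne N'))

/-- **the `α`-square `hα` of `geomInv_of_aux`**, for EVERY aux factor `r` prime to `q`. -/
theorem aLow_kumIncl_all (hq : q.Prime) (hqN' : q ∣ N') (hqr : Nat.Coprime r q)
    (hd : N' * q ∣ N' * r * q) (x : Additive (Kum Kb (FK (N' * q)) m)) :
    aLow (N' * r) q m (kumIncl m hd x) =
      kumIncl m (Dvd.intro r rfl : N' ∣ N' * r) (aLow N' q m x) := by
  obtain ⟨u, rfl⟩ := exists_rep x
  rw [kumIncl_mk, aLow_mk, aLow_mk, kumIncl_mk]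
  refine congrArg (fun v => Additive.ofMul (Kum.mk v)) (Subtype.ext (Units.ext ?_))
  show normAlong (alphaB (N' * r) q)
      ((inclUnits hd (u : (FK (N' * q))ˣ) : (FK (N' * r * q))ˣ) : FK (N' * r * q)) =
    ((inclUnits (Dvd.intro r rfl : N' ∣ N' * r) (normUnits N' q (u : (FK (N' * q))ˣ)) :
      (FK (N' * r))ˣ) : FK (N' * r))
  rw [inclUnits_eq, inclUnits_eq, coe_normUnits]
  exact normAlong_alphaB_inclAlg hq (Dvd.intro r rfl) hqN'
    (by rw [mul_div_cancel_aux]; exact hqr) hd _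

/-- **the `β`-square `hβ` of `geomInv_of_aux`**, for EVERY aux factor `r ≥ 1`. -/
theorem betaLow_kumIncl_all (hq : q.Prime) (hqN' : q ∣ N')
    (hd : N' * q ∣ N' * r * q) (x : Additive (Kum Kb (FK (N' * q)) m)) :
    betaLow (N' * r) q m (kumIncl m hd x) =
      kumIncl m (Dvd.intro r rfl : N' ∣ N' * r) (betaLow N' q m x) := by
  obtain ⟨u, rfl⟩ := exists_rep x
  rw [kumIncl_mk, betaLow_mk, betaLow_mk, kumIncl_mk]
  refine congrArg (fun v => Additive.ofMul (Kum.mk v)) (Subtype.ext (Units.ext ?_))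
  show normAlong (betaB (N' * r) q)
      ((inclUnits hd (u : (FK (N' * q))ˣ) : (FK (N' * r * q))ˣ) : FK (N' * r * q)) =
    ((inclUnits (Dvd.intro r rfl : N' ∣ N' * r) (normUnitsB N' q (u : (FK (N' * q))ˣ)) :
      (FK (N' * r))ˣ) : FK (N' * r))
  rw [inclUnits_eq, inclUnits_eq, coe_normUnitsB]
  exact normAlong_betaB_inclAlg hq (Dvd.intro r rfl) hqN' hd _

end Squares

end Fermat.Agent.GL.AuxLevel
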