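/-
GATE-L / L10 (helper62): **norm and trace under base change of a finite field extension**.

`K ⊆ L`, `K ⊆ K' ⊆ L'`, `L ⊆ L'` fields (a commutative square), `[L : K]` finite,
`L' = K' · L` (the `K'`-span of the image of `L` is everything) and `[L' : K'] = [L : K]`
(linear disjointness).  Then for every `x : L`

  `Nm_{L'/K'} x = Nm_{L/K} x`   and   `Tr_{L'/K'} x = Tr_{L/K} x`   (inside `K'`).

Proof: a `K`-basis of `L` is a `K'`-basis of `L'`, and the matrices of multiplication by `x`
coincide.  Mathlib has no such statement.  Use: the degeneracy norms `α_*`, `β_*` from level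
`q² M'` to level `q M'` commute with the pull-back to the auxiliary level `q² M' r` (`q ∤ r + 1`).

Mathlib only.
-/
import Mathlib

set_option autoImplicit false
set_option linter.style.haveILetI false

namespace Fermat.Agent.GL.NormBaseChange

open Module

section Alg

variable {K L K' L' : Type*} [Field K] [Field L] [Field K'] [Field L']
  [Algebra K L] [Algebra K K'] [Algebra K' L'] [Algebra L L'] [Algebra K L']
  [IsScalarTower K L L'] [IsScalarTower K K' L'] [FiniteDimensional K L]

omit [FiniteDimensional K L] in
/-- the image of a `K`-basis of `L` spans `L'` over `K'`. -/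
theorem span_image_basis {ι : Type*} (b : Basis ι K L)
    (hspan : Submodule.span K' (Set.range (algebraMap L L')) = ⊤) :
    Submodule.span K' (Set.range fun k => algebraMap L L' (b k)) = ⊤ := by
  rw [eq_top_iff, ← hspan]
  refine Submodule.span_le.mpr ?_
  rintro _ ⟨y, rfl⟩
  have hy : y ∈ Submodule.span K (Set.range b) := by rw [b.span_eq]; trivial
  induction hy using Submodule.span_induction with
  | mem z hz =>
    obtain ⟨k, rfl⟩ := hz
    exact Submodule.subset_span ⟨k, rfl⟩
  | zero => rw [map_zero]; exact Submodule.zero_mem _
  | add u v _ _ hu hv => rw [map_add]; exact Submodule.add_mem _ hu hv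
  | smul c z _ hz =>
    have e : algebraMap L L' (c • z) = (algebraMap K K' c) • algebraMap L L' z := by
      rw [Algebra.smul_def, map_mul, ← IsScalarTower.algebraMap_apply K L L',
        IsScalarTower.algebraMap_apply K K' L', ← Algebra.smul_def]
    rw [e]
    exact Submodule.smul_mem _ _ hz

/-- the image of the standard `K`-basis of `L` as a `K'`-basis of `L'`. -/
noncomputable def basisUp
    (hspan : Submodule.span K' (Set.range (algebraMap L L')) = ⊤)
    (hdeg : finrank K' L' = finrank K L) : Basis (Fin (finrank K L)) K' L' :=
  basisOfTopLeSpanOfCardEqFinrank (fun k => algebraMap L L' (Module.finBasis K L k))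
    (span_image_basis (Module.finBasis K L) hspan).ge
    (by rw [Fintype.card_fin, hdeg])

theorem basisUp_apply
    (hspan : Submodule.span K' (Set.range (algebraMap L L')) = ⊤)
    (hdeg : finrank K' L' = finrank K L) (k : Fin (finrank K L)) :
    basisUp hspan hdeg k = algebraMap L L' (Module.finBasis K L k) := by
  unfold basisUp
  rw [coe_basisOfTopLeSpanOfCardEqFinrank]

/-- the matrices of multiplication by `x` coincide. -/
theorem leftMulMatrix_basisUp
    (hspan : Submodule.span K' (Set.range (algebraMap L L')) = ⊤)
    (hdeg : finrank K' L' = finrank K L) (x : L) :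
    Algebra.leftMulMatrix (basisUp hspan hdeg) (algebraMap L L' x) =
      (Algebra.leftMulMatrix (Module.finBasis K L) x).map (algebraMap K K') := by
  classical
  set b := Module.finBasis K L with hb
  set B := basisUp (K := K) (L := L) hspan hdeg with hB
  ext i k
  rw [Algebra.leftMulMatrix_eq_repr_mul, Matrix.map_apply, Algebra.leftMulMatrix_eq_repr_mul]
  -- expand `x * b k` in the basis `b`
  have hx : x * b k = ∑ l, (b.repr (x * b k) l) • b l := (b.sum_repr (x * b k)).symm
  have hup : algebraMap L L' x * B k =
      ∑ l, (algebraMap K K' (b.repr (x * b k) l)) • B l := by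
    rw [hB, basisUp_apply, ← map_mul, hx, map_sum]
    refine Finset.sum_congr rfl fun l _ => ?_
    rw [basisUp_apply, Algebra.smul_def, map_mul, ← IsScalarTower.algebraMap_apply K L L',
      IsScalarTower.algebraMap_apply K K' L', ← Algebra.smul_def, ← hx]
  rw [hup, map_sum]
  simp only [map_smul, Basis.repr_self, Finsupp.smul_single, smul_eq_mul, mul_one]
  rw [Finset.sum_apply']
  simp [Finsupp.single_apply]

/-- **Norm base change.** -/
theorem norm_baseChange
    (hspan : Submodule.span K' (Set.range (algebraMap L L')) = ⊤)
    (hdeg : finrank K' L' = finrank K L) (x : L) :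
    Algebra.norm K' (algebraMap L L' x) = algebraMap K K' (Algebra.norm K x) := by
  classical
  rw [Algebra.norm_eq_matrix_det (basisUp (K := K) (L := L) hspan hdeg),
    Algebra.norm_eq_matrix_det (Module.finBasis K L), leftMulMatrix_basisUp hspan hdeg,
    RingHom.map_det]
  rfl

/-- **Trace base change.** -/
theorem trace_baseChange
    (hspan : Submodule.span K' (Set.range (algebraMap L L')) = ⊤)
    (hdeg : finrank K' L' = finrank K L) (x : L) :
    Algebra.trace K' L' (algebraMap L L' x) = algebraMap K K' (Algebra.trace K L x) := by
  classical
  rw [Algebra.trace_eq_matrix_trace (basisUp (K := K) (L := L) hspan hdeg),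
    Algebra.trace_eq_matrix_trace (Module.finBasis K L), leftMulMatrix_basisUp hspan hdeg]
  simp [Matrix.trace, Matrix.diag, map_sum]

/-! ### Linear disjointness for free in prime degree -/

omit [FiniteDimensional K L] in
/-- the `K'`-span of the image of `L` is the subalgebra generated by it. -/
theorem span_range_eq_adjoin :
    Submodule.span K' (Set.range (algebraMap L L')) =
      Subalgebra.toSubmodule (Algebra.adjoin K' (Set.range (algebraMap L L'))) := by
  rw [Algebra.adjoin_eq_span]
  congr 1
  refine le_antisymm (fun x hx => Submonoid.subset_closure hx) ?_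
  intro x hx
  induction hx using Submonoid.closure_induction with
  | mem y hy => exact hy
  | one => exact ⟨1, map_one _⟩
  | mul a b _ _ ha hb =>
    obtain ⟨a', rfl⟩ := ha
    obtain ⟨b', rfl⟩ := hb
    exact ⟨a' * b', map_mul _ _ _⟩

omit [FiniteDimensional K L] in
/-- **Prime degree: `L' = K' · L` unless `[L : K]` divides `[K' : K]`.**  If `[L' : K'] = q` is
prime, `[L : K] = q` and `q ∤ [K' : K]`, then the image of `L` spans `L'` over `K'`. -/
theorem span_eq_top_of_prime {q : ℕ} (hq : q.Prime) (hL : finrank K L = q)
    (hL' : finrank K' L' = q) (hK' : ¬ q ∣ finrank K K') :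
    Submodule.span K' (Set.range (algebraMap L L')) = ⊤ := by
  classical
  have hso : IsSimpleOrder (Subalgebra K' L') :=
    Subalgebra.isSimpleOrder_of_finrank_prime K' L' (by rw [hL']; exact hq)
  set C : Subalgebra K' L' := Algebra.adjoin K' (Set.range (algebraMap L L')) with hC
  rcases hso.eq_bot_or_eq_top C with hbot | htop
  · exfalso
    -- every element of `L` lands in `K'`
    have hmem : ∀ y : L, ∃ z : K', algebraMap K' L' z = algebraMap L L' y := by
      intro y
      have : algebraMap L L' y ∈ C := Algebra.subset_adjoin ⟨y, rfl⟩
      rw [hbot] at this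
      exact Algebra.mem_bot.mp this
    choose f hf using hmem
    have hinj : Function.Injective (algebraMap K' L') := (algebraMap K' L').injective
    let fR : L →+* K' :=
      { toFun := f
        map_one' := hinj (by rw [hf, map_one, map_one])
        map_mul' := fun a b => hinj (by rw [hf, map_mul, map_mul, hf, hf])
        map_zero' := hinj (by rw [hf, map_zero, map_zero])
        map_add' := fun a b => hinj (by rw [hf, map_add, map_add, hf, hf]) }
    letI : Algebra L K' := fR.toAlgebra
    have htower : IsScalarTower K L K' := IsScalarTower.of_algebraMap_eq fun c => by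
      apply hinj
      show algebraMap K' L' (algebraMap K K' c) = algebraMap K' L' (f (algebraMap K L c))
      rw [hf, ← IsScalarTower.algebraMap_apply K K' L', ← IsScalarTower.algebraMap_apply K L L']
    have hmul : finrank K L * finrank L K' = finrank K K' := Module.finrank_mul_finrank K L K'
    exact hK' ⟨finrank L K', by rw [← hmul, hL]⟩
  · rw [span_range_eq_adjoin, ← hC, htop]
    rfl

end Alg

end Fermat.Agent.GL.NormBaseChange
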