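/-
GATE-L / L10 (helper62): norm base change in the prelude's `Along` language.

A commutative square of function-field embeddings (all `k`-algebra homomorphisms)

        a
    F ────▶ L
  i │        │ j          `j ∘ a = a' ∘ i`
    ▼   a'   ▼
    F' ───▶ L'

with `[L : a F] = [L' : a' F'] = q` prime and `q ∤ [F' : i F]` satisfies
`Nm_{a'} (j x) = i (Nm_a x)` and `Tr_{a'} (j x) = i (Tr_a x)` for all `x : L`.

Use: `a = α_q` or `β_q : F_{N0} → F_{N0 q}`, `i`, `j` the inclusions into the auxiliary levels
`N0 r`, `N0 r q` (`q ∤ r + 1`).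
-/
import Fermat.Agent.GL.AuxLevel.NormBaseChange
import Fermat.Prelude.Def_AlgebraicCurve_Correspondence

set_option autoImplicit false
set_option linter.style.haveILetI false

namespace Fermat.Agent.GL.NormBaseChange

open AlgebraicCurve Module

variable {k F L F' L' : Type*} [Field k] [Field F] [Field L] [Field F'] [Field L']
  [Algebra k F] [Algebra k L] [Algebra k F'] [Algebra k L']

/-- **Norm along a commutative square (prime degree).** -/
theorem normAlong_square (a : F →ₐ[k] L) (a' : F' →ₐ[k] L') (i : F →ₐ[k] F') (j : L →ₐ[k] L')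
    (hsq : j.comp a = a'.comp i) {q : ℕ} (hq : q.Prime)
    (hdeg : finrankAlong k a = q) (hdeg' : finrankAlong k a' = q)
    (hi : ¬ q ∣ finrankAlong k i) (x : L) :
    @Algebra.norm F' L' _ _ (algebraAlong a') (j x) =
      i (@Algebra.norm F L _ _ (algebraAlong a) x) := by
  letI := algebraAlong a
  letI := algebraAlong a'
  letI := algebraAlong i
  letI := algebraAlong j
  letI : Algebra F L' := (j.comp a).toRingHom.toAlgebra
  have t1 : IsScalarTower F L L' := IsScalarTower.of_algebraMap_eq fun c => rfl
  have t2 : IsScalarTower F F' L' := IsScalarTower.of_algebraMap_eq fun c => by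
    show (j.comp a) c = a' (i c)
    rw [hsq]; rfl
  have hfd : FiniteDimensional F L :=
    FiniteDimensional.of_finrank_pos (by
      have : finrank F L = q := hdeg
      rw [this]; exact hq.pos)
  have hspan := span_eq_top_of_prime (K := F) (L := L) (K' := F') (L' := L') hq hdeg hdeg' hi
  exact norm_baseChange hspan (hdeg'.trans hdeg.symm) x

/-- **Trace along a commutative square (prime degree).** -/
theorem traceAlong_square (a : F →ₐ[k] L) (a' : F' →ₐ[k] L') (i : F →ₐ[k] F') (j : L →ₐ[k] L')
    (hsq : j.comp a = a'.comp i) {q : ℕ} (hq : q.Prime)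
    (hdeg : finrankAlong k a = q) (hdeg' : finrankAlong k a' = q)
    (hi : ¬ q ∣ finrankAlong k i) (x : L) :
    @Algebra.trace F' L' _ _ (algebraAlong a') (j x) =
      i (@Algebra.trace F L _ _ (algebraAlong a) x) := by
  letI := algebraAlong a
  letI := algebraAlong a'
  letI := algebraAlong i
  letI := algebraAlong j
  letI : Algebra F L' := (j.comp a).toRingHom.toAlgebra
  have t1 : IsScalarTower F L L' := IsScalarTower.of_algebraMap_eq fun c => rfl
  have t2 : IsScalarTower F F' L' := IsScalarTower.of_algebraMap_eq fun c => by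
    show (j.comp a) c = a' (i c)
    rw [hsq]; rfl
  have hfd : FiniteDimensional F L :=
    FiniteDimensional.of_finrank_pos (by
      have : finrank F L = q := hdeg
      rw [this]; exact hq.pos)
  have hspan := span_eq_top_of_prime (K := F) (L := L) (K' := F') (L' := L') hq hdeg hdeg' hi
  exact trace_baseChange hspan (hdeg'.trans hdeg.symm) x

end Fermat.Agent.GL.NormBaseChange
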